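import Fermat.Agent.ChebotarevProduct.Product
import Fermat.Agent.EuclideanMinimum.Basic
import Mathlib.RingTheory.Norm.Transitivity
import Mathlib.RingTheory.Discriminant
import Mathlib.NumberTheory.NumberField.InfinitePlace.TotallyRealComplex

/-!
# The Euclidean minimum of a totally real field

The real embeddings of an integral basis form a matrix with `det² = discr`, so Chebotarev's theorem
bounds the minimum by `2 ^ (-n/2) √discr`.
-/

set_option autoImplicit false
set_option linter.style.haveILetI false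

noncomputable section

namespace FA.ChebotarevProduct

open NumberField Module Matrix FA.EuclideanMinimum

variable (K : Type*) [Field K] [NumberField K] [IsTotallyReal K]

/-- The real number under an embedding of a totally real field. -/
theorem embedding_eq_re (σ : K →ₐ[ℚ] ℂ) (x : K) : σ x = ((σ x).re : ℂ) := by
  have h : ComplexEmbedding.IsReal σ.toRingHom :=
    InfinitePlace.isReal_mk_iff.1 (IsTotallyReal.isReal (InfinitePlace.mk σ.toRingHom))
  exact (Complex.conj_eq_iff_re.1 (RingHom.congr_fun h x)).symm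

theorem exists_matrix : ∃ (n : ℕ) (σ : Fin n ≃ (K →ₐ[ℚ] ℂ)) (A : Matrix (Fin n) (Fin n) ℝ),
    n = finrank ℚ K ∧ A.det ^ 2 = (discr K : ℝ) ∧
      ∀ m : Fin n → ℤ, ∃ g : 𝓞 K, ∀ i, (σ i (g : K)).re = (A *ᵥ realVec m) i := by
  classical
  obtain ⟨n, hn⟩ : ∃ n, n = finrank ℚ K := ⟨_, rfl⟩
  have hcard : Fintype.card (Free.ChooseBasisIndex ℤ (𝓞 K)) = n := by
    rw [← Module.finrank_eq_card_chooseBasisIndex, RingOfIntegers.rank, hn]
  obtain ⟨ι, -⟩ : ∃ ι : Free.ChooseBasisIndex ℤ (𝓞 K) ≃ Fin n, True :=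
    ⟨Fintype.equivFinOfCardEq hcard, trivial⟩
  obtain ⟨e, -⟩ : ∃ e : Fin n ≃ (K →ₐ[ℚ] ℂ), True :=
    ⟨(Fintype.equivFinOfCardEq ((AlgHom.card ℚ K ℂ).trans hn.symm)).symm, trivial⟩
  obtain ⟨ω, hω⟩ : ∃ ω, ω = (RingOfIntegers.basis K).reindex ι := ⟨_, rfl⟩
  obtain ⟨A, hA⟩ : ∃ A : Matrix (Fin n) (Fin n) ℝ, A = Matrix.of fun i j => (e i (ω j : K)).re :=
    ⟨_, rfl⟩
  refine ⟨n, e, A, hn, ?_, fun m => ⟨∑ j, m j • ω j, fun i => ?_⟩⟩
  · have h := Algebra.discr_eq_det_embeddingsMatrixReindex_pow_two ℚ ℂ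
      ((integralBasis K) ∘ ι.symm) e
    rw [Algebra.discr_reindex, ← coe_discr, map_intCast] at h
    apply Complex.ofReal_injective
    rw [Complex.ofReal_intCast, h, Complex.ofReal_pow]
    congr 1
    rw [← Matrix.det_transpose (Algebra.embeddingsMatrixReindex ℚ ℂ _ e),
      show ((A.det : ℝ) : ℂ) = (A.map Complex.ofRealHom).det from
        (RingHom.map_det Complex.ofRealHom A).trans rfl]
    congr 1
    ext i j
    simp [hA, hω, Algebra.embeddingsMatrixReindex, Algebra.embeddingsMatrix, ← embedding_eq_re]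
  · simp [hA, Matrix.mulVec, dotProduct, realVec, mul_comm]

theorem fieldMin_le_chebotarev (z : K) :
    fieldMin z ≤ Real.sqrt (discr K) / Real.sqrt 2 ^ finrank ℚ K := by
  obtain ⟨n, σ, A, hn, hdet, hint⟩ := exists_matrix K
  have hA : A.det ≠ 0 := fun h0 => by
    rw [h0, zero_pow two_ne_zero, eq_comm, Int.cast_eq_zero] at hdet
    exact discr_ne_zero K hdet
  refine le_of_forall_pos_le_add fun ε hε => ?_
  obtain ⟨m, hm⟩ := exists_product_le A hA (fun i => (σ i z).re) hε
  obtain ⟨g, hg⟩ := hint m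
  refine (fieldMin_le z (-g)).trans (le_of_eq_of_le ?_ (hm.trans (le_of_eq ?_)))
  · rw [← Real.norm_eq_abs, ← Complex.norm_real, Complex.ofReal_ratCast,
      ← eq_ratCast (algebraMap ℚ ℂ),
      Algebra.norm_eq_prod_embeddings, ← σ.prod_comp, norm_prod]
    refine Finset.prod_congr rfl fun i _ => ?_
    rw [← hg, embedding_eq_re K (σ i), Complex.norm_real, Real.norm_eq_abs,
      show z - ((-g : 𝓞 K) : K) = z + (g : K) by
        rw [show ((-g : 𝓞 K) : K) = -(g : K) from rfl, sub_neg_eq_add],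
      map_add, Complex.add_re]
  · rw [← hn, ← hdet, Real.sqrt_sq_eq_abs]

theorem exists_norm_le (z : K) : ∃ g : 𝓞 K, |((Algebra.norm ℚ (z - g) : ℚ) : ℝ)| ≤
    Real.sqrt (discr K) / Real.sqrt 2 ^ finrank ℚ K := by
  obtain ⟨g, hg⟩ := exists_fieldMin_eq z
  exact ⟨g, hg ▸ fieldMin_le_chebotarev K z⟩

theorem euclideanMinimum_le :
    euclideanMinimum K ≤ Real.sqrt (discr K) / Real.sqrt 2 ^ finrank ℚ K :=
  ciSup_le (fieldMin_le_chebotarev K)

end FA.ChebotarevProduct
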