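import Mathlib.MeasureTheory.Group.GeometryOfNumbers
import Mathlib.MeasureTheory.Measure.Lebesgue.EqHaar
import Mathlib.Algebra.Module.ZLattice.Covolume
import Mathlib.Analysis.Real.Sqrt

/-!
# The product of inhomogeneous linear forms

Scale a translate of nearly least product to `(1, …, 1)`; then every lattice point `y` has
`∏ |1 - y_i²| ≥ (1 - t)²`, so none but zero lies in the cube of half side nearly `√2`.
-/

set_option autoImplicit false

noncomputable section

namespace FA.ChebotarevProduct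

open Matrix MeasureTheory Filter
open scoped Topology

variable {n : ℕ}

/-- An integral vector with real entries. -/
def realVec (m : Fin n → ℤ) : Fin n → ℝ := fun i => (m i : ℝ)

theorem exists_box_point {B : Matrix (Fin n) (Fin n) ℝ} (hB : B.det ≠ 0) {r : ℝ} (hr : 0 < r)
    (h : |B.det| < r ^ n) : ∃ m : Fin n → ℤ, m ≠ 0 ∧ ∀ i, |(B *ᵥ realVec m) i| < r := by
  obtain ⟨f, hf⟩ : ∃ f, f = Matrix.toLin' B := ⟨_, rfl⟩
  have hdet : LinearMap.det f = B.det := hf ▸ LinearMap.det_toLin' B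
  obtain ⟨S, hS⟩ : ∃ S : Set (Fin n → ℝ), S = Metric.ball 0 r := ⟨_, rfl⟩
  obtain ⟨b, hb⟩ : ∃ b, b = Pi.basisFun ℝ (Fin n) := ⟨_, rfl⟩
  have hfund : volume (ZSpan.fundamentalDomain b) = 1 := by
    rw [ZSpan.volume_fundamentalDomain,
      show Matrix.of (⇑b) = (1 : Matrix (Fin n) (Fin n) ℝ) from Matrix.ext fun i j => by
        simp [hb, Matrix.one_apply, Pi.single_apply, eq_comm],
      Matrix.det_one, abs_one, ENNReal.ofReal_one]
  have : Countable (Submodule.span ℤ (Set.range b)).toAddSubgroup :=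
    inferInstanceAs (Countable (Submodule.span ℤ (Set.range b)))
  obtain ⟨⟨x, hx⟩, hx0, hxS⟩ :=
    exists_ne_zero_mem_lattice_of_measure_mul_two_pow_lt_measure (μ := volume) (s := f ⁻¹' S)
      (ZSpan.isAddFundamentalDomain' b volume)
      (fun x hx => by
        show f (-x) ∈ S
        rw [map_neg, hS, mem_ball_zero_iff, norm_neg, ← mem_ball_zero_iff, ← hS]
        exact hx)
      ((hS ▸ convex_ball (0 : Fin n → ℝ) r).linear_preimage f)
      (by
        rw [hfund, one_mul, Module.finrank_fin_fun, Measure.addHaar_preimage_linearMap _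
          (hdet ▸ hB), hdet, hS, Real.volume_pi_ball _ hr, Fintype.card_fin,
          ← ENNReal.ofReal_mul (abs_nonneg _), ← ENNReal.ofReal_ofNat, ← ENNReal.ofReal_pow
          zero_le_two, ENNReal.ofReal_lt_ofReal_iff_of_nonneg (by positivity), mul_pow, abs_inv,
          inv_mul_eq_div, lt_div_iff₀ (abs_pos.2 hB)]
        exact mul_lt_mul_of_pos_left h (by positivity))
  rw [Submodule.mem_toAddSubgroup, Module.Basis.mem_span_iff_repr_mem] at hx
  choose z hz using hx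
  have e : realVec z = x := funext fun i => by simpa [hb, realVec] using hz i
  refine ⟨z, fun h0 => hx0 (Subtype.ext ?_), fun i => ?_⟩
  · show x = 0
    rw [← e, h0]
    funext i
    simp [realVec]
  · have hxS' : f x ∈ S := hxS
    rw [hS, mem_ball_zero_iff, pi_norm_lt_iff hr, ← e, hf] at hxS'
    simpa [Real.norm_eq_abs] using hxS' i

theorem sq_le_of_one_le_prod {ι : Type*} (s : Finset ι) {y : ι → ℝ} {t : ℝ} (ht0 : 0 < t)
    (ht1 : t < 1) (hy : ∀ i ∈ s, |y i| ^ 2 < 1 + (1 - t) ^ 2)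
    (h : (1 - t) ^ 2 ≤ ∏ i ∈ s, |1 - y i ^ 2|) {i : ι} (hi : i ∈ s) : y i ^ 2 ≤ 2 * t := by
  classical
  have hle : ∀ j ∈ s, |1 - y j ^ 2| ≤ 1 := fun j hj => by
    have := hy j hj
    rw [sq_abs] at this
    rw [abs_le]
    constructor <;> nlinarith [sq_nonneg (y j)]
  have h1 : (1 - t) ^ 2 ≤ |1 - y i ^ 2| := by
    rw [← Finset.mul_prod_erase _ _ hi] at h
    exact h.trans (mul_le_of_le_one_right (abs_nonneg _)
      (Finset.prod_le_one (fun j _ => abs_nonneg _) fun j hj => hle j (Finset.mem_of_mem_erase hj)))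
  have h2 := hy i hi
  rw [sq_abs] at h2
  rcases le_total (y i ^ 2) 1 with h3 | h3
  · rw [abs_of_nonneg (by linarith)] at h1
    nlinarith
  · rw [abs_of_nonpos (by linarith)] at h1
    linarith

theorem exists_product_le (A : Matrix (Fin n) (Fin n) ℝ) (hA : A.det ≠ 0) (x : Fin n → ℝ) {ε : ℝ}
    (hε : 0 < ε) : ∃ m : Fin n → ℤ,
      ∏ i, |x i + (A *ᵥ realVec m) i| ≤ |A.det| / Real.sqrt 2 ^ n + ε := by
  by_contra! hno
  obtain ⟨M, hM⟩ : ∃ M, M = ⨅ m : Fin n → ℤ, ∏ i, |x i + (A *ᵥ realVec m) i| := ⟨_, rfl⟩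
  have hbdd : BddBelow (Set.range fun m : Fin n → ℤ => ∏ i, |x i + (A *ᵥ realVec m) i|) :=
    ⟨0, fun _ ⟨m, hm⟩ => hm ▸ Finset.prod_nonneg fun i _ => abs_nonneg _⟩
  have hMlo : |A.det| / Real.sqrt 2 ^ n + ε ≤ M := hM ▸ le_ciInf fun m => (hno m).le
  have hM0 : 0 < M := lt_of_lt_of_le (by positivity) hMlo
  have hdetM : |A.det| / M < Real.sqrt 2 ^ n := by
    have h2 : (0 : ℝ) < Real.sqrt 2 ^ n := by positivity
    rw [div_lt_iff₀ hM0, ← div_lt_iff₀' h2]
    linarith
  obtain ⟨t, ⟨ht, ht1⟩, ht0⟩ : ∃ t : ℝ, (|A.det| / M < Real.sqrt (1 + (1 - t) ^ 2) ^ n ∧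
      t < 1 / 32) ∧ 0 < t := by
    have hc : Tendsto (fun t : ℝ => Real.sqrt (1 + (1 - t) ^ 2) ^ n) (𝓝 0)
        (𝓝 (Real.sqrt 2 ^ n)) := by
      have : Continuous fun t : ℝ => Real.sqrt (1 + (1 - t) ^ 2) ^ n := by fun_prop
      simpa [one_add_one_eq_two] using this.tendsto 0
    exact ((((hc.eventually (lt_mem_nhds hdetM)).and
      (gt_mem_nhds (show (0 : ℝ) < 1 / 32 by norm_num))).filter_mono nhdsWithin_le_nhds).and
        (self_mem_nhdsWithin (s := Set.Ioi (0 : ℝ)))).exists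
  obtain ⟨m₀, hm₀⟩ : ∃ m₀ : Fin n → ℤ, (1 - t) * ∏ i, |x i + (A *ᵥ realVec m₀) i| < M := by
    have : M < M / (1 - t) := by
      rw [lt_div_iff₀ (by linarith)]
      nlinarith
    obtain ⟨m, hm⟩ := exists_lt_of_ciInf_lt (hM ▸ this)
    rw [lt_div_iff₀' (by linarith)] at hm
    exact ⟨m, hM ▸ hm⟩
  have hlow : ∀ m : Fin n → ℤ, M ≤ ∏ i, |x i + (A *ᵥ realVec m) i| := fun m =>
    hM ▸ ciInf_le hbdd m
  obtain ⟨c, hc⟩ : ∃ c, c = fun i => x i + (A *ᵥ realVec m₀) i := ⟨_, rfl⟩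
  have hc' : ∀ i, c i = x i + (A *ᵥ realVec m₀) i := fun i => by rw [hc]
  have hcpos : 0 < ∏ i, |c i| := by
    rw [hc]
    exact hM0.trans_le (hlow m₀)
  have hc0 : ∀ i, c i ≠ 0 := fun i e =>
    hcpos.ne' (Finset.prod_eq_zero (Finset.mem_univ i) (by rw [e, abs_zero]))
  have key : ∀ m : Fin n → ℤ, (1 - t) ≤ ∏ i, |1 + (A *ᵥ realVec m) i / c i| := by
    intro m
    have h1 := hlow (m₀ + m)
    have e : ∀ i, x i + (A *ᵥ realVec (m₀ + m)) i = c i * (1 + (A *ᵥ realVec m) i / c i) := by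
      intro i
      rw [mul_add, mul_one, mul_div_cancel₀ _ (hc0 i),
        show realVec (m₀ + m) = realVec m₀ + realVec m by funext j; simp [realVec],
        mulVec_add, Pi.add_apply, hc']
      ring
    simp only [e, abs_mul, Finset.prod_mul_distrib] at h1
    refine le_of_mul_le_mul_left ?_ hcpos
    have h2 : (1 - t) * ∏ i, |c i| < M := by simpa [hc] using hm₀
    linarith
  have key2 : ∀ m : Fin n → ℤ, (1 - t) ^ 2 ≤ ∏ i, |1 - ((A *ᵥ realVec m) i / c i) ^ 2| := by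
    intro m
    have h2 := key (-m)
    rw [show realVec (-m) = -realVec m by funext j; simp [realVec], mulVec_neg] at h2
    have e : ∀ i, |1 - ((A *ᵥ realVec m) i / c i) ^ 2| =
        |1 + (A *ᵥ realVec m) i / c i| * |1 + (-(A *ᵥ realVec m)) i / c i| := fun i => by
      rw [← abs_mul, Pi.neg_apply]
      congr 1
      ring
    simp only [e, Finset.prod_mul_distrib]
    rw [sq]
    exact mul_le_mul (key m) h2 (by linarith) (Finset.prod_nonneg fun i _ => abs_nonneg _)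
  obtain ⟨B, hB⟩ : ∃ B, B = Matrix.diagonal (fun i => (c i)⁻¹) * A := ⟨_, rfl⟩
  have hBdet : |B.det| = |A.det| / ∏ i, |c i| := by
    rw [hB, Matrix.det_mul, Matrix.det_diagonal, abs_mul, Finset.abs_prod,
      div_eq_inv_mul, ← Finset.prod_inv_distrib]
    simp [abs_inv]
  obtain ⟨r, hr⟩ : ∃ r, r = Real.sqrt (1 + (1 - t) ^ 2) := ⟨_, rfl⟩
  have hr0 : 0 < r := hr ▸ by positivity
  have hB0 : B.det ≠ 0 := by
    rw [← abs_ne_zero, hBdet]
    exact div_ne_zero (abs_ne_zero.2 hA) hcpos.ne'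
  have hlt : |B.det| < r ^ n := by
    rw [hBdet, hr]
    refine lt_of_le_of_lt ?_ ht
    refine div_le_div_of_nonneg_left (abs_nonneg _) hM0 ?_
    rw [hc]
    exact hlow m₀
  obtain ⟨m, hm0, hm⟩ := exists_box_point hB0 hr0 hlt
  obtain ⟨y, hy⟩ : ∃ y, y = fun i => (A *ᵥ realVec m) i / c i := ⟨_, rfl⟩
  have hyB : B *ᵥ realVec m = y := by
    funext i
    rw [hB, ← mulVec_mulVec, mulVec_diagonal, hy, inv_mul_eq_div]
  have hy0 : ∃ i, y i ≠ 0 := by
    by_contra! h0
    refine hm0 ?_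
    have h1 := Matrix.eq_zero_of_mulVec_eq_zero hB0 (hyB.trans (funext h0))
    funext i
    simpa [realVec] using congrFun h1 i
  -- multiples of `y` in the cube stay small
  have hsmall : ∀ k : ℕ, (∀ i, |(k : ℝ) * y i| < r) → ∀ i, ((k : ℝ) * y i) ^ 2 ≤ 2 * t := by
    intro k hk i
    have e : ∀ i, (A *ᵥ realVec ((k : ℤ) • m)) i / c i = (k : ℝ) * y i := fun i => by
      rw [show realVec ((k : ℤ) • m) = (k : ℝ) • realVec m by funext j; simp [realVec],
        mulVec_smul, Pi.smul_apply, smul_eq_mul, hy, mul_div_assoc]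
    have h := key2 ((k : ℤ) • m)
    simp only [e] at h
    exact sq_le_of_one_le_prod Finset.univ (y := fun i => (k : ℝ) * y i) ht0 (by linarith)
      (fun j _ => by
        have := pow_lt_pow_left₀ (hk j) (abs_nonneg _) two_ne_zero
        rwa [hr, Real.sq_sqrt (by positivity)] at this) h (Finset.mem_univ i)
  have hhalf : ∀ k : ℕ, (∀ i, |(k : ℝ) * y i| < r) → ∀ i, |(k : ℝ) * y i| ≤ 1 / 4 := fun k hk i =>
    abs_le_of_sq_le_sq (by linarith [hsmall k hk i]) (by norm_num)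
  have hr1 : 1 ≤ r := hr ▸ Real.one_le_sqrt.2 (by nlinarith [sq_nonneg (1 - t)])
  have hind : ∀ k : ℕ, ∀ i, |(k : ℝ) * y i| ≤ 1 / 4 := by
    intro k
    induction k with
    | zero => intro i; norm_num
    | succ k ih =>
      refine hhalf (k + 1) fun i => ?_
      have h1 : |y i| ≤ 1 / 4 := by
        simpa using hhalf 1 (fun j => by simpa [← hyB] using hm j) i
      push_cast
      rw [add_mul, one_mul]
      refine (abs_add_le _ _).trans_lt ?_
      linarith [ih i]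
  obtain ⟨i, hi⟩ := hy0
  obtain ⟨k, hk⟩ := exists_nat_gt (1 / |y i|)
  have := hind k i
  rw [abs_mul, Nat.abs_cast] at this
  rw [div_lt_iff₀ (abs_pos.2 hi)] at hk
  linarith

end FA.ChebotarevProduct
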